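/-
Row 38 (S44), junction J-OUT (helper34): from the output of block R to the frozen conclusion.

`RetOutput p N₀ S a` (an eigenform of level `N₀` congruent to `a` at the primes `ℓ ∉ S`, `ℓ ∤ N₀`),
with `a ℓ = a_ℓ(W)` at the primes `ℓ ∉ S`, `ℓ ∤ N₀` which are good for an integral model `W` of the
Frey curve, gives `P.ModularRepOfLevel N₀`:  rescale `W` by `u = ∏ (primes of S)`; every prime of `S`
is bad for the rescaled model and `a_ℓ` does not change at the other primes.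
-/
import Fermat.Agent.R38.Ret.Defs
import Fermat.Agent.Lib.VarChange.Point
import Fermat.Prelude.Def_FLTPrelim_ModularRep

set_option autoImplicit false

noncomputable section

namespace Fermat.Agent.R38

open WeierstrassCurve

/-- the model `y² + u a₁ xy + u³ a₃ y = x³ + u² a₂ x² + u⁴ a₄ x + u⁶ a₆`. -/
def scaleModel {R : Type*} [CommRing R] (W : WeierstrassCurve R) (u : R) : WeierstrassCurve R :=
  ⟨u * W.a₁, u ^ 2 * W.a₂, u ^ 3 * W.a₃, u ^ 4 * W.a₄, u ^ 6 * W.a₆⟩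

theorem scaleModel_Δ {R : Type*} [CommRing R] (W : WeierstrassCurve R) (u : R) :
    (scaleModel W u).Δ = u ^ 12 * W.Δ := by
  simp only [scaleModel, WeierstrassCurve.Δ, WeierstrassCurve.b₂, WeierstrassCurve.b₄,
    WeierstrassCurve.b₆, WeierstrassCurve.b₈]
  ring

theorem scaleModel_map {R A : Type*} [CommRing R] [CommRing A] (W : WeierstrassCurve R) (u : R)
    (φ : R →+* A) : (scaleModel W u).map φ = scaleModel (W.map φ) (φ u) := by
  ext <;> simp [scaleModel, WeierstrassCurve.map]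

/-- the change of variables `(x, y) ↦ (u⁻² x, u⁻³ y)`. -/
def scaleVC {A : Type*} [CommRing A] (u : Aˣ) : VariableChange A := ⟨u⁻¹, 0, 0, 0⟩

theorem scaleVC_smul {A : Type*} [CommRing A] (W : WeierstrassCurve A) (u : Aˣ) :
    scaleVC u • W = scaleModel W (u : A) := by
  ext <;> simp [scaleVC, scaleModel, WeierstrassCurve.variableChange_a₁,
    WeierstrassCurve.variableChange_a₂, WeierstrassCurve.variableChange_a₃,
    WeierstrassCurve.variableChange_a₄, WeierstrassCurve.variableChange_a₆]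

/-- a change of variables over a finite field does not change the number of points. -/
theorem card_smul_eq {F : Type*} [Field F] [Finite F] (C : VariableChange F)
    (W : WeierstrassCurve F) : (C • W).card = W.card := by
  classical
  have h1 : Nat.card (C • W).toAffine.Point ≤ Nat.card W.toAffine.Point :=
    Nat.card_le_card_of_injective _
      (Fermat.Agent.VarChange.vcHom_injective (W₁ := W.toAffine) (W₂ := (C • W).toAffine) C rfl)
  have h2 : Nat.card W.toAffine.Point ≤ Nat.card (C • W).toAffine.Point :=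
    Nat.card_le_card_of_injective _
      (Fermat.Agent.VarChange.vcHom_injective (W₁ := (C • W).toAffine) (W₂ := W.toAffine) C⁻¹
        (inv_smul_smul C W).symm)
  exact le_antisymm h1 h2

/-- `a_ℓ` of the rescaled model, `ℓ ∤ u`. -/
theorem apOfModel_scaleModel (W : WeierstrassCurve ℤ) (u : ℤ) {ℓ : ℕ} (hℓ : ℓ.Prime)
    (hu : ¬ (ℓ : ℤ) ∣ u) : (scaleModel W u).apOfModel ℓ = W.apOfModel ℓ := by
  haveI : Fact ℓ.Prime := ⟨hℓ⟩
  have hu0 : ((u : ℤ) : ZMod ℓ) ≠ 0 := by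
    rw [Ne, ZMod.intCast_zmod_eq_zero_iff_dvd]
    exact hu
  have h1 : (scaleModel W u).reductionMod ℓ =
      scaleVC (Units.mk0 _ hu0) • W.reductionMod ℓ := by
    rw [scaleVC_smul, WeierstrassCurve.reductionMod, scaleModel_map]
    rfl
  rw [WeierstrassCurve.apOfModel, WeierstrassCurve.apOfModel, WeierstrassCurve.traceOfFrobenius,
    WeierstrassCurve.traceOfFrobenius, h1, card_smul_eq]

/-- the rescaled model is an integral model of the same curve. -/
theorem isIntegralModelOf_scaleModel {W : WeierstrassCurve ℤ} {E : WeierstrassCurve ℚ}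
    (hW : W.IsIntegralModelOf E) {u : ℤ} (hu : u ≠ 0) : (scaleModel W u).IsIntegralModelOf E := by
  obtain ⟨C, hC⟩ := hW
  have hu0 : ((u : ℤ) : ℚ) ≠ 0 := by exact_mod_cast hu
  refine ⟨scaleVC (Units.mk0 _ hu0) * C, ?_⟩
  rw [mul_smul, hC, scaleVC_smul, scaleModel_map]
  rfl

/-- the product of the primes of `S`. -/
def primeProd (S : Finset ℕ) : ℕ := ∏ s ∈ S.filter Nat.Prime, s

theorem primeProd_ne_zero (S : Finset ℕ) : primeProd S ≠ 0 := by
  rw [primeProd, Finset.prod_ne_zero_iff]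
  intro s hs
  exact (Finset.mem_filter.mp hs).2.ne_zero

theorem dvd_primeProd {S : Finset ℕ} {ℓ : ℕ} (hℓ : ℓ.Prime) (hℓS : ℓ ∈ S) : ℓ ∣ primeProd S :=
  Finset.dvd_prod_of_mem _ (Finset.mem_filter.mpr ⟨hℓS, hℓ⟩)

/-- **J-OUT.** -/
theorem modularRepOfLevel_of_retOutput (P : FreyPackage) (W : WeierstrassCurve ℤ)
    (hW : W.IsIntegralModelOf P.freyCurve) (N₀ : ℕ) (S : Finset ℕ) (a : ℕ → ℤ)
    (ha : ∀ ℓ : ℕ, ℓ.Prime → ℓ ∉ S → ¬ ℓ ∣ N₀ → W.IsGoodPrimeFor ℓ → a ℓ = W.apOfModel ℓ)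
    (h : Fermat.Agent.R38Ret.RetOutput P.p N₀ S a) : P.ModularRepOfLevel N₀ := by
  obtain ⟨g, 𝔪, hg, h𝔪, hp, hcong⟩ := h
  have hu : ((primeProd S : ℕ) : ℤ) ≠ 0 := by exact_mod_cast primeProd_ne_zero S
  refine ⟨g, scaleModel W (primeProd S : ℤ), 𝔪, hg, isIntegralModelOf_scaleModel hW hu, h𝔪, hp,
    fun ℓ hℓ hgood hℓN _ => ?_⟩
  have hΔ : ¬ (ℓ : ℤ) ∣ ((primeProd S : ℕ) : ℤ) ^ 12 * W.Δ := by
    have := hgood
    rwa [WeierstrassCurve.IsGoodPrimeFor, scaleModel_Δ] at this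
  have hℓu : ¬ (ℓ : ℤ) ∣ ((primeProd S : ℕ) : ℤ) := fun hd =>
    hΔ (Dvd.dvd.mul_right (Dvd.dvd.pow hd (by norm_num)) _)
  have hℓS : ℓ ∉ S := fun hS => hℓu (by exact_mod_cast dvd_primeProd hℓ hS)
  have hgoodW : W.IsGoodPrimeFor ℓ := fun hd => hΔ (Dvd.dvd.mul_left hd _)
  obtain ⟨α, hα, hαm⟩ := hcong ℓ hℓ hℓS hℓN
  refine ⟨α, hα, ?_⟩
  rw [apOfModel_scaleModel W _ hℓ hℓu, ← ha ℓ hℓ hℓS hℓN hgoodW]
  exact hαm

end Fermat.Agent.R38
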