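/-
Row 38 (target S44), the SPINE (architect: helper81): the junction STATEMENTS of the blocks and
the ASSEMBLY `spine_s44`:  the junctions  ⟹  the frozen statement S44.

Each `SpJ..` below is the final statement of one block, in the language of `R38/SpineDefs.lean`.
-/
import Mathlib
import Fermat.Agent.R38.SpineDefs
import Fermat.Agent.R38.T.Defs
import Fermat.Agent.R38.Out
import Fermat.Agent.R38.Ret.BridgeDefs
import Fermat.Prelude.Def_FLTPrelim_GaloisRep
import Fermat.Prelude.Def_FLTPrelim_ModularRep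
import Fermat.Prelude.Def_FreyPackage_IsConductorLevel

set_option autoImplicit false
set_option linter.style.haveILetI false
set_option linter.unusedSectionVars false
set_option linter.unusedVariables false
set_option synthInstance.maxHeartbeats 400000
set_option maxHeartbeats 1000000

noncomputable section

namespace Fermat.Agent.R38

open ModularCurve AlgebraicCurve Fermat.Agent.F3 Fermat.Agent.F3G Fermat.Agent.F3I2
  Fermat.Agent.GaussInt Fermat.Agent.AtkinLehner Fermat.Agent.Deuring Fermat.Agent.RR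
  Fermat.Agent.BadRed Fermat.Agent.EKp WeierstrassCurve WeierstrassCurve.Affine
  WeierstrassCurve.Affine.Point

local notation "Qb" => AlgebraicClosure ℚ
local notation "GQ" => (AlgebraicClosure ℚ ≃ₐ[ℚ] AlgebraicClosure ℚ)

/-- `E[p]` over `ℚ̄` for an integral model `W`. -/
abbrev spETors (W : WeierstrassCurve ℤ) (p : ℕ) : Type :=
  ↥(Submodule.torsionBy ℤ ((W.map (Int.castRingHom ℚ))⁄Qb).Point ((p : ℕ) : ℤ))

/-- the conditions on the finite set `S` of excluded primes. -/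
def SpSOK (P : FreyPackage) (D : ALData) (W : WeierstrassCurve ℤ) (S : Finset ℕ) : Prop :=
  P.p ∈ S ∧ (∀ q : ℕ, q.Prime → q ∣ D.Q * D.R → q ∈ S) ∧
    ∀ ℓ : ℕ, ℓ.Prime → ¬ W.IsGoodPrimeFor ℓ → ℓ ∈ S

/-- a Galois embedding of `E[p]` (`E` = the integral Frey model `P.freyCurveInt`, which has
multiplicative reduction at `p`) into the `p`-new eigenspace with the eigenvalues `a_ℓ(W)` of the
(arbitrary) integral model `W` of the hypothesis. -/
def SpFreyEmb (P : FreyPackage) (D : ALData) [NeZero D.Q] [NeZero D.R] [NeZero (D.Q * D.R)]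
    (W : WeierstrassCurve ℤ) (S : Finset ℕ)
    (θ : spETors P.freyCurveInt P.p →+ JZero (D.Q * D.R)) : Prop :=
  Function.Injective θ ∧ (∀ (σ : GQ) (x : spETors P.freyCurveInt P.p), θ (σ • x) = σ • θ x) ∧
    ∀ x : spETors P.freyCurveInt P.p, spIsNewEigen D S (fun ℓ => W.apOfModel ℓ) (θ x)

/-! ### the junctions -/

/-- **J-G1** (helper69, helper56): the modular representation of level `N = p N₀` either occurs at
level `N₀` modulo `p`, or has a nonzero `p`-new eigen-class. -/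
def SpJG1 : Prop :=
  ∀ (P : FreyPackage) (D : ALData) [NeZero D.Q] [NeZero D.R] [NeZero (D.Q * D.R)],
    D.Q = P.p → ¬ D.Q ∣ D.R → P.IsConductorLevel (D.Q * D.R) →
    P.ModularRepOfLevel (D.Q * D.R) →
    ∃ (W : WeierstrassCurve ℤ) (S : Finset ℕ), W.IsIntegralModelOf P.freyCurve ∧ SpSOK P D W S ∧
      (Fermat.Agent.R38Ret.RetOutput P.p D.R S (fun ℓ => W.apOfModel ℓ) ∨
        ∃ y : JZero (D.Q * D.R), y ≠ 0 ∧ spIsNewEigen D S (fun ℓ => W.apOfModel ℓ) y)

/-- **J-G3** (helper56, helper54, helper14): a nonzero `p`-new eigen-class gives a Galois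
embedding of `E[p]`. -/
def SpJG3 : Prop :=
  ∀ (P : FreyPackage) (D : ALData) [NeZero D.Q] [NeZero D.R] [NeZero (D.Q * D.R)],
    D.Q = P.p → ¬ D.Q ∣ D.R → P.IsConductorLevel (D.Q * D.R) →
    GaloisRepIsIrreducible (K := AlgebraicClosure ℚ) ℚ P.freyCurve P.p →
    ∀ (W : WeierstrassCurve ℤ) (S : Finset ℕ), W.IsIntegralModelOf P.freyCurve → SpSOK P D W S →
      (∃ y : JZero (D.Q * D.R), y ≠ 0 ∧ spIsNewEigen D S (fun ℓ => W.apOfModel ℓ) y) →
      ∃ θ : spETors P.freyCurveInt P.p →+ JZero (D.Q * D.R), SpFreyEmb P D W S θ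

/-- **J-T** (helper39, helper77, helper13): the Kummer form of "peu ramifie" for the integral
Frey model. -/
def SpJT : Prop :=
  ∀ (P : FreyPackage), (P.p : ℤ) ∣ P.a * P.b * P.c →
    ∀ A : ValuationSubring Qb, A.LiesOverPrime P.p →
      Fermat.Agent.R38T.PeuKummer (P.freyCurveInt.map (Int.castRingHom ℚ)) P.p A

/-- **J-S** (helper11): some class of `V = θ (E[p])` is outside `K'`, and the inertia elements
fixing `ζ_p` fix the differences `σ y - y`. -/
def SpJS : Prop :=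
  ∀ (P : FreyPackage) (D : ALData) [NeZero D.Q] [NeZero D.R] [NeZero (D.Q * D.R)],
    D.Q = P.p → ¬ D.Q ∣ D.R → P.IsConductorLevel (D.Q * D.R) →
    ∀ (W : WeierstrassCurve ℤ) (S : Finset ℕ), W.IsIntegralModelOf P.freyCurve → SpSOK P D W S →
    ∀ θ : spETors P.freyCurveInt P.p →+ JZero (D.Q * D.R), SpFreyEmb P D W S θ →
    ∀ A : ValuationSubring Qb, A.LiesOverPrime D.Q →
      (∃ x : spETors P.freyCurveInt P.p,
          θ x ∉ Fermat.Agent.BadRed.PNew.kPrime D rfl A D.Q) ∧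
        ∀ x : spETors P.freyCurveInt P.p, spUnip D.Q A (θ x)

/-- **J-D** (helper62): (INT). -/
def SpJD : Prop :=
  ∀ (D : ALData) [NeZero D.Q] [NeZero D.R] [NeZero (D.Q * D.R)]
    (A : ValuationSubring Qb) (hq : D.Q.Prime) (hA : A.LiesOverPrime D.Q) (hqR : ¬ D.Q ∣ D.R)
    [Fact D.Q.Prime] [CharP (IsLocalRing.ResidueField A) D.Q]
    [PerfectRing (IsLocalRing.ResidueField A) D.Q],
    5 ≤ D.Q →
    ∀ (S : Finset ℕ) (a : ℕ → ℤ) (y : JZero (D.Q * D.R)), spIsNewEigen D S a y →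
      spKumStab D.Q A y → spUnip D.Q A y →
      ∀ (E : Divisor.degZero (K := Qb) (F := FBar (D.Q * D.R))) (g : FBar (D.Q * D.R)),
        spIsKumGen D.Q y E g → spSlopeInt D A hq hA hqR g

/-- **J-W** (helper5): the `w`-symmetry of the hypotheses. -/
def SpJW : Prop :=
  ∀ (D : ALData) [NeZero D.Q] [NeZero D.R] [NeZero (D.Q * D.R)]
    (A : ValuationSubring Qb), D.Q.Prime → A.LiesOverPrime D.Q → ¬ D.Q ∣ D.R →
    ∀ (S : Finset ℕ) (a : ℕ → ℤ) (y : JZero (D.Q * D.R)),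
      (∀ q : ℕ, q.Prime → q ∣ D.Q * D.R → q ∈ S) →
      (spIsNewEigen D S a y → spIsNewEigen D S a (Fermat.Agent.F3DegP.pushW D y)) ∧
      (spKumStab D.Q A y → spKumStab D.Q A (Fermat.Agent.F3DegP.pushW D y)) ∧
      (spUnip D.Q A y → spUnip D.Q A (Fermat.Agent.F3DegP.pushW D y)) ∧
      ∀ (E : Divisor.degZero (K := Qb) (F := FBar (D.Q * D.R))) (g : FBar (D.Q * D.R)),
        spIsKumGen D.Q y E g →
          ∃ E', spIsKumGen D.Q (Fermat.Agent.F3DegP.pushW D y) E' (atkinLehner D g)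

/-- **J-P** (helper16): (PHI). -/
def SpJP : Prop :=
  ∀ (P : FreyPackage) (D : ALData) [NeZero D.Q] [NeZero D.R] [NeZero (D.Q * D.R)]
    (A : ValuationSubring Qb) (hq : D.Q.Prime) (hA : A.LiesOverPrime D.Q) (hqR : ¬ D.Q ∣ D.R)
    [Fact D.Q.Prime] [CharP (IsLocalRing.ResidueField A) D.Q]
    [PerfectRing (IsLocalRing.ResidueField A) D.Q],
    D.Q = P.p → P.IsConductorLevel (D.Q * D.R) →
    GaloisRepIsIrreducible (K := AlgebraicClosure ℚ) ℚ P.freyCurve P.p →
    ∀ (W : WeierstrassCurve ℤ) (S : Finset ℕ), W.IsIntegralModelOf P.freyCurve → SpSOK P D W S →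
    ∀ y : JZero (D.Q * D.R), spIsNewEigen D S (fun ℓ => W.apOfModel ℓ) y →
      ∀ (E : Divisor.degZero (K := Qb) (F := FBar (D.Q * D.R))) (g : FBar (D.Q * D.R)),
        spIsKumGen D.Q y E g → spSlopeInt D A hq hA hqR g →
          spSlopeInt D A hq hA hqR (atkinLehner D g) → spDivZero D A hq hA hqR g

/-- **J-E** (helper12): a class outside `K'` has `Ψ ≠ 0`. -/
def SpJE : Prop :=
  ∀ (D : ALData) [NeZero D.Q] [NeZero D.R] [NeZero (D.Q * D.R)]
    (A : ValuationSubring Qb) (hq : D.Q.Prime) (hA : A.LiesOverPrime D.Q) (hqR : ¬ D.Q ∣ D.R)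
    [Fact D.Q.Prime] [CharP (IsLocalRing.ResidueField A) D.Q]
    [PerfectRing (IsLocalRing.ResidueField A) D.Q],
    5 ≤ D.Q →
    ∀ y : JZero (D.Q * D.R), D.Q • y = 0 →
      y ∉ Fermat.Agent.BadRed.PNew.kPrime D rfl A D.Q →
      ∀ (E : Divisor.degZero (K := Qb) (F := FBar (D.Q * D.R))) (g : FBar (D.Q * D.R)),
        spIsKumGen D.Q y E g → spPsiNe D A hq hA hqR g

/-- **J-R6a** (helper98): the level-`N` side of the bridge. -/
def SpJR6a : Prop :=
  ∀ (D : ALData) [NeZero D.Q] [NeZero D.R] [NeZero (D.Q * D.R)]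
    (A : ValuationSubring Qb) (hq : D.Q.Prime) (hA : A.LiesOverPrime D.Q) (hqR : ¬ D.Q ∣ D.R)
    [Fact D.Q.Prime] [CharP (IsLocalRing.ResidueField A) D.Q]
    [PerfectRing (IsLocalRing.ResidueField A) D.Q],
    5 ≤ D.Q →
    ∀ (S : Finset ℕ) (a : ℕ → ℤ), D.Q ∈ S → (∀ q : ℕ, q.Prime → q ∣ D.Q * D.R → q ∈ S) →
    ∀ y : JZero (D.Q * D.R), spIsNewEigen D S a y →
      ∀ (E : Divisor.degZero (K := Qb) (F := FBar (D.Q * D.R))) (g : FBar (D.Q * D.R)),
        spIsKumGen D.Q y E g → spDivZero D A hq hA hqR g → spPsiNe D A hq hA hqR g →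
          Fermat.Agent.R38Ret.BridgeInput D S A a

/-- **J-R6b** (helper76): the level-`N₀` side of the bridge. -/
def SpJR6b : Prop :=
  ∀ (D : ALData) [NeZero D.Q] [NeZero D.R] [NeZero (D.Q * D.R)], D.Q.Prime → 5 ≤ D.Q →
    ¬ D.Q ∣ D.R → ∀ S : Finset ℕ, D.Q ∈ S → (∀ q : ℕ, q.Prime → q ∣ D.Q * D.R → q ∈ S) →
      Fermat.Agent.R38Ret.BridgeStatement D S

/-- **J-R** (helper44): (RET). -/
def SpJR : Prop :=
  ∀ (p M : ℕ) [NeZero M], p.Prime → 5 ≤ p → ¬ p ∣ M → ∀ S : Finset ℕ, p ∈ S →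
    (∀ q : ℕ, q.Prime → q ∣ M → q ∈ S) → Fermat.Agent.R38Ret.RetStatement p M S

end Fermat.Agent.R38
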