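/-
Row 38 (target S44), the ASSEMBLY (architect: helper81):
`spine_core`, `spine_s44`:  the junctions of `R38/Spine.lean`  ⟹  the frozen statement S44.
-/
import Mathlib
import Fermat.Agent.R38.Spine
import Fermat.Agent.Lib.Frobenius.Exists
import Fermat.Agent.Lib.FrobTrace.Residue

set_option autoImplicit false
set_option linter.style.haveILetI false
set_option linter.unusedSectionVars false
set_option linter.unusedVariables false
set_option synthInstance.maxHeartbeats 400000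
set_option maxHeartbeats 1000000

noncomputable section

namespace Fermat.Agent.R38

open ModularCurve AlgebraicCurve Fermat.Agent.F3 Fermat.Agent.F3G Fermat.Agent.F3I2
  Fermat.Agent.GaussInt Fermat.Agent.AtkinLehner Fermat.Agent.Deuring Fermat.Agent.RR
  Fermat.Agent.BadRed Fermat.Agent.EKp WeierstrassCurve WeierstrassCurve.Affine
  WeierstrassCurve.Affine.Point

local notation "Qb" => AlgebraicClosure ℚ
local notation "GQ" => (AlgebraicClosure ℚ ≃ₐ[ℚ] AlgebraicClosure ℚ)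

/-- the Kummer stabiliser of `θ x` from the Kummer form of "peu ramifie" of `E[p]`. -/
theorem spKumStab_of_peuKummer {M : ℕ} (W : WeierstrassCurve ℤ) (p : ℕ)
    (A : ValuationSubring Qb) (h : Fermat.Agent.R38T.PeuKummer (W.map (Int.castRingHom ℚ)) p A)
    (θ : spETors W p →+ JZero M)
    (hθ : ∀ (σ : GQ) (x : spETors W p), θ (σ • x) = σ • θ x) (x : spETors W p) :
    spKumStab p A (θ x) := by
  obtain ⟨a, ha1, ha2, hafix, hkum⟩ := h
  refine ⟨a, ha1, ha2, hafix, fun α ζ hα hζ σ hσ hσζ hσα => ?_⟩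
  have hx : p • (x : ((W.map (Int.castRingHom ℚ))⁄Qb).Point) = 0 := by
    have := x.2
    rw [Submodule.mem_torsionBy_iff] at this
    rwa [natCast_zsmul] at this
  have h1 : σ • (x : ((W.map (Int.castRingHom ℚ))⁄Qb).Point) = x :=
    hkum α ζ hα hζ σ hσ hσζ hσα _ hx
  have h2 : σ • x = x := Subtype.ext h1
  rw [← hθ, h2]

/-- the exponent of `spKumStab` may be replaced by an equal one. -/
theorem spKumStab_congr {M : ℕ} {p q : ℕ} (h : p = q) (A : ValuationSubring Qb) (y : JZero M)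
    (hy : spKumStab p A y) : spKumStab q A y := by
  subst h
  exact hy

/-- the exponent of `RetOutput` may be replaced by an equal one. -/
theorem retOutput_congr {p q : ℕ} (h : p = q) (M : ℕ) (S : Finset ℕ) (a : ℕ → ℤ)
    (hy : Fermat.Agent.R38Ret.RetOutput p M S a) : Fermat.Agent.R38Ret.RetOutput q M S a := by
  subst h
  exact hy

/-- **the core of the spine**: level `D.Q * D.R` to level `D.R`. -/
theorem spine_core (hG1 : SpJG1) (hG3 : SpJG3) (hT : SpJT) (hS : SpJS) (hD : SpJD) (hW : SpJW)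
    (hP : SpJP) (hE : SpJE) (hR6a : SpJR6a) (hR6b : SpJR6b) (hR : SpJR)
    (P : FreyPackage) (D : ALData) [NeZero D.Q] [NeZero D.R] [NeZero (D.Q * D.R)]
    (hDQ : D.Q = P.p) (hqR : ¬ D.Q ∣ D.R) (hcond : P.IsConductorLevel (D.Q * D.R))
    (hirr : GaloisRepIsIrreducible (K := AlgebraicClosure ℚ) ℚ P.freyCurve P.p)
    (hmod : P.ModularRepOfLevel (D.Q * D.R)) : P.ModularRepOfLevel D.R := by
  have hq : D.Q.Prime := hDQ ▸ P.pp
  have h5 : 5 ≤ D.Q := hDQ ▸ P.hp5
  obtain ⟨W, S, hWm, hSOK, h⟩ := hG1 P D hDQ hqR hcond hmod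
  have hout : Fermat.Agent.R38Ret.RetOutput P.p D.R S (fun ℓ => W.apOfModel ℓ) →
      P.ModularRepOfLevel D.R := fun h =>
    modularRepOfLevel_of_retOutput P W hWm D.R S _ (fun _ _ _ _ _ => rfl) h
  rcases h with h | hy
  · exact hout h
  · obtain ⟨θ, hθ⟩ := hG3 P D hDQ hqR hcond hirr W S hWm hSOK hy
    obtain ⟨A, hA⟩ := Fermat.Agent.FrobExists.exists_valuationSubring_liesOver D.Q hq
    haveI : Fact D.Q.Prime := ⟨hq⟩
    haveI : CharP (IsLocalRing.ResidueField A) D.Q :=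
      Fermat.Agent.FrobTrace.charP_residueField A hA
    haveI : IsAlgClosed (IsLocalRing.ResidueField A) := Fermat.Agent.GaussInt.isAlgClosed_residue A
    haveI : PerfectRing (IsLocalRing.ResidueField A) D.Q := inferInstance
    obtain ⟨⟨x, hx⟩, hunip⟩ := hS P D hDQ hqR hcond W S hWm hSOK θ hθ A hA
    have hnew := hθ.2.2 x
    have hpN : P.p ∣ D.Q * D.R := hDQ ▸ dvd_mul_right D.Q D.R
    have hpabc : (P.p : ℤ) ∣ P.a * P.b * P.c := hcond.p_dvd_abc hpN
    have hAp : A.LiesOverPrime P.p := hDQ ▸ hA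
    have hkum0 : spKumStab P.p A (θ x) :=
      spKumStab_of_peuKummer P.freyCurveInt P.p A (hT P hpabc A hAp) θ hθ.2.1 x
    have hkum : spKumStab D.Q A (θ x) := spKumStab_congr hDQ.symm A (θ x) hkum0
    have htors : ((D.Q : ℕ) : ℤ) • θ x = 0 := by
      rw [natCast_zsmul]; exact hnew.1
    obtain ⟨E, g, hR0, hEg⟩ := exists_isRootDiv_of_torsion D.Q (θ x) htors
    have hgen : spIsKumGen D.Q (θ x) E g := ⟨hR0, hEg⟩
    have hint := hD D A hq hA hqR h5 S _ (θ x) hnew hkum (hunip x) E g hgen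
    obtain ⟨hW1, hW2, hW3, hW4⟩ := hW D A hq hA hqR S (fun ℓ => W.apOfModel ℓ) (θ x) hSOK.2.1
    obtain ⟨E', hE'⟩ := hW4 E g hgen
    have hint' := hD D A hq hA hqR h5 S _ _ (hW1 hnew) (hW2 hkum) (hW3 (hunip x)) E'
      (atkinLehner D g) hE'
    have hdiv := hP P D A hq hA hqR hDQ hcond hirr W S hWm hSOK (θ x) hnew E g hgen hint hint'
    have hpsi := hE D A hq hA hqR h5 (θ x) hnew.1 hx E g hgen
    have hpS : D.Q ∈ S := hDQ.symm ▸ hSOK.1
    have hbr := hR6a D A hq hA hqR h5 S _ hpS hSOK.2.1 (θ x) hnew E g hgen hdiv hpsi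
    have hin := hR6b D hq h5 hqR S hpS hSOK.2.1 A hA _ hbr
    have hret := hR D.Q D.R hq h5 hqR S hpS
      (fun q hq' hqd => hSOK.2.1 q hq' (Dvd.dvd.mul_left hqd D.Q)) A hA _ hin
    exact hout (retOutput_congr hDQ D.R S _ hret)

/-- **the spine**: the junctions give the frozen statement S44. -/
theorem spine_s44 (hG1 : SpJG1) (hG3 : SpJG3) (hT : SpJT) (hS : SpJS) (hD : SpJD) (hW : SpJW)
    (hP : SpJP) (hE : SpJE) (hR6a : SpJR6a) (hR6b : SpJR6b) (hR : SpJR)
    (P : FreyPackage) {N : ℕ} (hcond : P.IsConductorLevel N) (hpN : P.p ∣ N)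
    (hirr : GaloisRepIsIrreducible (K := AlgebraicClosure ℚ) ℚ P.freyCurve P.p)
    (hmod : P.ModularRepOfLevel N) :
    ∃ M : ℕ, M ∣ N ∧ ¬ P.p ∣ M ∧ P.ModularRepOfLevel M := by
  obtain ⟨N₀, rfl⟩ := hpN
  have hN₀ : 0 < N₀ := by
    rcases Nat.eq_zero_or_pos N₀ with h | h
    · exfalso
      have := hcond.pos
      rw [h, mul_zero] at this
      exact lt_irrefl _ this
    · exact h
  have hpN₀ : ¬ P.p ∣ N₀ := by
    intro hd
    have h2 : P.p ^ 2 ∣ P.p * N₀ := by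
      rw [pow_two]; exact mul_dvd_mul_left _ hd
    exact hcond.sq_not_dvd P.pp h2
  have hcop : Nat.Coprime P.p N₀ := (Nat.Prime.coprime_iff_not_dvd P.pp).mpr hpN₀
  obtain ⟨D, hDQ, hDR⟩ := ALData.exists_of_coprime P.hppos hN₀ hcop
  have hN : P.p * N₀ = D.Q * D.R := by rw [hDQ, hDR]
  rw [hN] at hcond hmod
  haveI : NeZero D.Q := ⟨D.hQ.ne'⟩
  haveI : NeZero D.R := ⟨D.hR.ne'⟩
  haveI : NeZero (D.Q * D.R) := ⟨mul_ne_zero D.hQ.ne' D.hR.ne'⟩
  have hqR : ¬ D.Q ∣ D.R := by rw [hDQ, hDR]; exact hpN₀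
  have := spine_core hG1 hG3 hT hS hD hW hP hE hR6a hR6b hR P D hDQ hqR hcond hirr hmod
  refine ⟨D.R, ?_, ?_, this⟩
  · rw [hN]; exact dvd_mul_left D.R D.Q
  · rw [hDR]; exact hpN₀

end Fermat.Agent.R38
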