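/-
Row 38, block R (RET): RIGIDITY BY DIVISION (abstract, Mathlib only).  Owner: helper50.

Setting (instance in mind): `J = J₀(M₀)(ℚ̄)`, `Jb = Pic⁰(C)(k)` with `k = 𝔽̄_p`, `red : J → Jb` the
reduction at a place above `p`, `G = Gal(ℚ̄/ℚ)`, `φ = P(T)` a polynomial in the Hecke operators
which is zero on cusp forms (hence kills the torsion of `J`), `φb = P(T̄)`.

Claim: `φb (red z) = 0` for every `z`.  No Mordell–Weil, no torsion lifts, no formal groups:
for `z ∈ J` pick `g ∈ G` fixing `z` and acting on `Jb` through a power `F` of Frobenius whose fixed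
points are killed by `m ≠ 0`; divide `z = m • z'`; then `g • z' - z'` is torsion, so `φ z'` is
`g`-fixed, so `m • red (φ z') = 0`, i.e. `red (φ z) = 0`.
-/
import Mathlib

namespace Fermat.Agent.R38

section Rig

variable {G J Jb : Type*} [Group G] [AddCommGroup J] [AddCommGroup Jb] [DistribMulAction G J]

/-- The Frobenius-type finiteness hypothesis at a point `z`: some `g` fixes `z`, and the reduction
of every `g`-fixed point is killed by a nonzero integer `m`. -/
def RigFrobAt (G : Type*) {J Jb : Type*} [Group G] [AddCommGroup J] [AddCommGroup Jb]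
    [DistribMulAction G J] (red : J →+ Jb) (z : J) : Prop :=
  ∃ g : G, g • z = z ∧ ∃ m : ℕ, m ≠ 0 ∧ ∀ w : J, g • w = w → m • red w = 0

/-- `RigFrobAt` from a Frobenius `F` on the reduction: `g` fixes `z`, `red ∘ g = F ∘ red`, and the
fixed points of `F` are killed by `m`. -/
theorem rigFrobAt_of_frob (red : J →+ Jb) (z : J) (g : G) (hg : g • z = z) (F : Jb → Jb)
    (hF : ∀ w : J, red (g • w) = F (red w)) (m : ℕ) (hm : m ≠ 0)
    (hfix : ∀ y : Jb, F y = y → m • y = 0) : RigFrobAt G red z :=
  ⟨g, hg, m, hm, fun w hw => hfix _ (by rw [← hF, hw])⟩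

/-- `RigFrobAt` from a Frobenius `F` with FINITELY many fixed points. -/
theorem rigFrobAt_of_finite_fixed (red : J →+ Jb) (z : J) (g : G) (hg : g • z = z) (F : Jb →+ Jb)
    (hF : ∀ w : J, red (g • w) = F (red w)) (hfin : {y : Jb | F y = y}.Finite) :
    RigFrobAt G red z := by
  classical
  -- the fixed points form a finite subgroup
  let H : AddSubgroup Jb :=
    { carrier := {y : Jb | F y = y}
      zero_mem' := map_zero F
      add_mem' := fun {a b} ha hb => by
        change F a = a at ha
        change F b = b at hb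
        change F (a + b) = a + b
        rw [map_add, ha, hb]
      neg_mem' := fun {a} ha => by
        change F a = a at ha
        change F (-a) = -a
        rw [map_neg, ha] }
  have hH : Finite H := hfin.to_subtype
  let _inst : Fintype H := Fintype.ofFinite H
  refine rigFrobAt_of_frob red z g hg F hF (Fintype.card H) Fintype.card_ne_zero ?_
  intro y hy
  have h1 : Fintype.card H • (⟨y, hy⟩ : H) = 0 := card_nsmul_eq_zero
  have h2 : ((Fintype.card H • (⟨y, hy⟩ : H) : H) : Jb) = 0 := by rw [h1]; rfl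
  rwa [AddSubgroup.coe_nsmul] at h2

/-- **Rigidity by division.**  Let `φ` be an additive endomorphism of `J` commuting with the action
of `G` and killing the torsion of `J`, let `J` be divisible, and let `z` satisfy `RigFrobAt`.
Then `red (φ z) = 0`. -/
theorem rig_red_eq_zero (red : J →+ Jb) (φ : J →+ J)
    (hcomm : ∀ (g : G) (x : J), φ (g • x) = g • φ x)
    (htors : ∀ x : J, (∃ n : ℕ, n ≠ 0 ∧ n • x = 0) → φ x = 0)
    (hdiv : ∀ (x : J) (n : ℕ), n ≠ 0 → ∃ y : J, n • y = x)
    (z : J) (hz : RigFrobAt G red z) : red (φ z) = 0 := by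
  obtain ⟨g, hg, m, hm, hfix⟩ := hz
  obtain ⟨z', hz'⟩ := hdiv z m hm
  have ht : φ (g • z' - z') = 0 := by
    refine htors _ ⟨m, hm, ?_⟩
    rw [smul_sub, ← smul_comm g m z', hz', hg, sub_self]
  have hw : g • φ z' = φ z' := by
    rw [← hcomm, ← sub_eq_zero, ← map_sub]
    exact ht
  have h := hfix (φ z') hw
  rw [← hz', map_nsmul, map_nsmul]
  exact h

/-- **Rigidity by division, reduced form.**  If moreover `red` is onto and `red ∘ φ = φb ∘ red`,
then `φb = 0` on `Jb`. -/
theorem rig_bar_eq_zero (red : J →+ Jb) (hred : Function.Surjective red) (φ : J →+ J)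
    (φb : Jb → Jb) (hφ : ∀ x : J, red (φ x) = φb (red x))
    (hcomm : ∀ (g : G) (x : J), φ (g • x) = g • φ x)
    (htors : ∀ x : J, (∃ n : ℕ, n ≠ 0 ∧ n • x = 0) → φ x = 0)
    (hdiv : ∀ (x : J) (n : ℕ), n ≠ 0 → ∃ y : J, n • y = x)
    (hfrob : ∀ z : J, RigFrobAt G red z) (y : Jb) : φb y = 0 := by
  obtain ⟨z, rfl⟩ := hred y
  rw [← hφ]
  exact rig_red_eq_zero red φ hcomm htors hdiv z (hfrob z)

/-- **Consequence for eigenvectors.**  Let `R` be a commutative ring acting on `J` (through `act`)
and on `Jb` (through `actb`) compatibly with `red`, the action on `J` commuting with `G`; let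
`ybar ≠ 0` in `Jb` be an eigenvector with eigencharacter `χ : R → k` (`k` a field acting on the
`k`-vector space... here only: `actb r ybar = 0 ↔ χ r = 0`).  Then `χ` kills every `r` whose action on
`J` kills the torsion. -/
theorem rig_eigen_eq_zero {R k : Type*} [Zero k]
    (red : J →+ Jb) (hred : Function.Surjective red)
    (act : R → J →+ J) (actb : R → Jb → Jb)
    (hact : ∀ (r : R) (x : J), red (act r x) = actb r (red x))
    (hcomm : ∀ (r : R) (g : G) (x : J), act r (g • x) = g • act r x)
    (hdiv : ∀ (x : J) (n : ℕ), n ≠ 0 → ∃ y : J, n • y = x)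
    (hfrob : ∀ z : J, RigFrobAt G red z)
    (ybar : Jb) (χ : R → k) (hχ : ∀ r : R, actb r ybar = 0 → χ r = 0)
    (r : R) (htors : ∀ x : J, (∃ n : ℕ, n ≠ 0 ∧ n • x = 0) → act r x = 0) : χ r = 0 :=
  hχ r (rig_bar_eq_zero red hred (act r) (actb r) (hact r) (hcomm r) htors hdiv hfrob ybar)

end Rig

end Fermat.Agent.R38
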